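import Mathlib

/-!
Shared interface for the "Kummer project": Fermat's Last Theorem for the exponents 5, 7, 11, 13
(which makes statements S10 and S11 vacuous, since a Frey package with such a `p` cannot exist).
-/

namespace Fermat.Agent.S10

open NumberField

/-- Kummer's lemma for the prime `p` in the `p`-th cyclotomic field `K`:
a unit congruent to a rational integer modulo `p` is a `p`-th power of a unit. -/
def KummerLemma (p : ℕ) (K : Type) [Field K] [NumberField K] : Prop :=
  ∀ u : (𝓞 K)ˣ, (∃ n : ℤ, (p : 𝓞 K) ∣ (u : 𝓞 K) - n) → ∃ v : (𝓞 K)ˣ, u = v ^ p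

/-- A family of `(p - 1) / 2` units which is independent modulo "congruent to an integer mod `p`". -/
def IndepUnits (p : ℕ) (K : Type) [Field K] [NumberField K]
    (v : Fin ((p - 1) / 2) → (𝓞 K)ˣ) : Prop :=
  ∀ e : Fin ((p - 1) / 2) → ℤ,
    (∃ m : ℤ, (p : 𝓞 K) ∣ ((∏ i, v i ^ e i : (𝓞 K)ˣ) : 𝓞 K) - m) → ∀ i, (p : ℤ) ∣ e i

end Fermat.Agent.S10
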